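/-
S21 (Eichler–Shimura), package A3 (helper86): the range of the period pairing consists of
parabolic homomorphisms.  Depends only on the frozen Prelude definitions.
-/
import Mathlib
import Fermat.Prelude.Def_ModularCurve_PeriodHomPair

set_option autoImplicit false

open UpperHalfPlane CongruenceSubgroup Filter Topology ModularCurve ModularCurve.Period
open scoped MatrixGroups

noncomputable section

namespace Fermat.Agent.S21.H86

/-- Integer core of `exists_conj_T_zpow_of_trace_eq_two`. -/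
theorem exists_fixed_vector_aux (p q r s : ℤ) (h : p + s = 2) (hdet : p * s - q * r = 1)
    (hr0 : r ≠ 0) :
    ∃ a b c d m : ℤ, a * d - b * c = 1 ∧ p * a + q * c = a ∧ p * b + q * d = a * m + b ∧
      r * a + s * c = c ∧ r * b + s * d = c * m + d := by
  have hgpos : 0 < (p - 1).gcd r := Int.gcd_pos_of_ne_zero_right _ hr0
  have hg0 : ((p - 1).gcd r : ℤ) ≠ 0 := by
    have : (0 : ℤ) < ((p - 1).gcd r : ℤ) := by exact_mod_cast hgpos
    exact this.ne'
  have hcop : IsCoprime ((p - 1) / ((p - 1).gcd r : ℤ)) (r / ((p - 1).gcd r : ℤ)) := by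
    rw [Int.isCoprime_iff_gcd_eq_one]
    exact Int.gcd_div_gcd_div_gcd hgpos
  have ha : p - 1 = ((p - 1).gcd r : ℤ) * ((p - 1) / ((p - 1).gcd r : ℤ)) :=
    (Int.mul_ediv_cancel' (Int.gcd_dvd_left _ _)).symm
  have hc : r = ((p - 1).gcd r : ℤ) * (r / ((p - 1).gcd r : ℤ)) :=
    (Int.mul_ediv_cancel' (Int.gcd_dvd_right _ _)).symm
  generalize (p - 1) / ((p - 1).gcd r : ℤ) = a at hcop ha hc
  generalize r / ((p - 1).gcd r : ℤ) = c at hcop ha hc
  generalize ((p - 1).gcd r : ℤ) = g at hg0 ha hc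
  clear hgpos
  obtain ⟨x, y, hxy⟩ := hcop
  have hp : p = 1 + g * a := by linarith
  have hs : s = 1 - g * a := by linarith
  subst hp hs hc
  have E : g * a ^ 2 + q * c = 0 := by
    apply mul_left_cancel₀ hg0
    linear_combination -hdet
  have hδ : a * x - (-y) * c = 1 := by linear_combination hxy
  refine ⟨a, -y, c, x, x * (g * a * (-y) + q * x) + (-y) * g, hδ, ?_, ?_, ?_, ?_⟩
  · linear_combination E
  · linear_combination (-(q * x)) * hδ - ((-y) * x) * E
  · ring
  · linear_combination (g * a * x) * hδ - x ^ 2 * E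

/-- A trace-`2` element of `SL(2, ℤ)` is conjugate inside `SL(2, ℤ)` to a power of `T`. -/
theorem exists_conj_T_zpow_of_trace_eq_two (γ : SL(2, ℤ))
    (h : (γ : Matrix (Fin 2) (Fin 2) ℤ).trace = 2) :
    ∃ (δ : SL(2, ℤ)) (m : ℤ), γ * δ = δ * ModularGroup.T ^ m := by
  have hdet : (γ : Matrix (Fin 2) (Fin 2) ℤ) 0 0 * (γ : Matrix (Fin 2) (Fin 2) ℤ) 1 1
      - (γ : Matrix (Fin 2) (Fin 2) ℤ) 0 1 * (γ : Matrix (Fin 2) (Fin 2) ℤ) 1 0 = 1 := by
    have := γ.det_coe
    rwa [Matrix.det_fin_two] at this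
  rw [Matrix.trace_fin_two] at h
  by_cases hr0 : (γ : Matrix (Fin 2) (Fin 2) ℤ) 1 0 = 0
  · -- upper triangular: `γ = T ^ q`
    have hps : (γ : Matrix (Fin 2) (Fin 2) ℤ) 0 0 * (γ : Matrix (Fin 2) (Fin 2) ℤ) 1 1 = 1 := by
      rw [hr0] at hdet; linarith
    have hp1 : (γ : Matrix (Fin 2) (Fin 2) ℤ) 0 0 = 1 := by
      have h1 : ((γ : Matrix (Fin 2) (Fin 2) ℤ) 0 0 - 1) ^ 2 = 0 := by
        have : (γ : Matrix (Fin 2) (Fin 2) ℤ) 1 1 = 2 - (γ : Matrix (Fin 2) (Fin 2) ℤ) 0 0 := by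
          linarith
        rw [this] at hps
        linear_combination -hps
      have := pow_eq_zero_iff (two_ne_zero) |>.mp h1
      linarith
    have hs1 : (γ : Matrix (Fin 2) (Fin 2) ℤ) 1 1 = 1 := by linarith
    refine ⟨1, (γ : Matrix (Fin 2) (Fin 2) ℤ) 0 1, ?_⟩
    rw [mul_one, one_mul]
    ext i j
    rw [ModularGroup.coe_T_zpow]
    fin_cases i <;> fin_cases j <;> simp [hp1, hs1, hr0]
  · obtain ⟨a, b, c, d, m, hδ, k1, k2, k3, k4⟩ := exists_fixed_vector_aux _ _ _ _ h hdet hr0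
    refine ⟨⟨!![a, b; c, d], by rw [Matrix.det_fin_two_of]; exact hδ⟩, m, ?_⟩
    apply Subtype.ext
    show (γ : Matrix (Fin 2) (Fin 2) ℤ) * !![a, b; c, d]
      = !![a, b; c, d] * ((ModularGroup.T ^ m : SL(2, ℤ)) : Matrix (Fin 2) (Fin 2) ℤ)
    rw [ModularGroup.coe_T_zpow]
    ext i j
    fin_cases i <;> fin_cases j <;>
      simp only [Fin.zero_eta, Fin.mk_one, Fin.isValue, Matrix.mul_apply, Fin.sum_univ_two,
        Matrix.of_apply, Matrix.cons_val', Matrix.cons_val_zero, Matrix.cons_val_one,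
        Matrix.cons_val_fin_one]
    · linear_combination k1
    · linear_combination k2
    · linear_combination k3
    · linear_combination k4

end Fermat.Agent.S21.H86

namespace Fermat.Agent.S21.H86

/-- Real translations preserve the filter `atImInfty`. -/
theorem tendsto_vadd_atImInfty (x : ℝ) :
    Tendsto (fun w : ℍ => x +ᵥ w) atImInfty atImInfty := by
  simp only [atImInfty, tendsto_comap_iff, Function.comp_def, vadd_im]
  exact tendsto_comap

/-- If `γ' * δ = δ * T ^ m` and `γ'` acts on `ℍ` like `γ`, the period of `γ` vanishes. -/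
theorem period_eq_zero_of_conj {N : ℕ} {F : ℍ → ℂ} (hF : IsEquivariantPrimitive (Gamma0 N) F)
    (hlim : ∀ δ : SL(2, ℤ), ∃ L : ℂ, Tendsto (fun w : ℍ => F (δ • w)) atImInfty (𝓝 L))
    (γ : Gamma0 N) (γ' δ : SL(2, ℤ)) (m : ℤ) (hconj : γ' * δ = δ * ModularGroup.T ^ m)
    (hact : ∀ z : ℍ, γ' • z = (γ : SL(2, ℤ)) • z) : hF.period γ = 0 := by
  obtain ⟨L, hL⟩ := hlim δ
  have key : ∀ w : ℍ, F (δ • ((m : ℝ) +ᵥ w)) - F (δ • w) = hF.period γ := by
    intro w
    have h1 := hF.sub_eq_period γ (δ • w)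
    rw [← hact, ← mul_smul, hconj, mul_smul, modular_T_zpow_smul] at h1
    exact h1
  have hL' : Tendsto (fun w : ℍ => F (δ • ((m : ℝ) +ᵥ w))) atImInfty (𝓝 L) :=
    hL.comp (tendsto_vadd_atImInfty (m : ℝ))
  have h2 : Tendsto (fun w : ℍ => F (δ • ((m : ℝ) +ᵥ w)) - F (δ • w)) atImInfty (𝓝 (L - L)) :=
    hL'.sub hL
  have h3 : Tendsto (fun _ : ℍ => hF.period γ) atImInfty (𝓝 (L - L)) := by
    refine h2.congr (fun w => key w)
  have := tendsto_nhds_unique h3 tendsto_const_nhds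
  rw [sub_self] at this
  exact this.symm

/-- (A3a, pointwise) The period of an element of trace `±2` vanishes. -/
theorem period_eq_zero_of_trace_sq {N : ℕ} {F : ℍ → ℂ}
    (hF : IsEquivariantPrimitive (Gamma0 N) F)
    (hlim : ∀ δ : SL(2, ℤ), ∃ L : ℂ, Tendsto (fun w : ℍ => F (δ • w)) atImInfty (𝓝 L))
    (γ : Gamma0 N) (hγ : ((γ : SL(2, ℤ)) : Matrix (Fin 2) (Fin 2) ℤ).trace ^ 2 = 4) :
    hF.period γ = 0 := by
  have h2 : ((γ : SL(2, ℤ)) : Matrix (Fin 2) (Fin 2) ℤ).trace = 2 ∨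
      ((γ : SL(2, ℤ)) : Matrix (Fin 2) (Fin 2) ℤ).trace = -2 := by
    have : (((γ : SL(2, ℤ)) : Matrix (Fin 2) (Fin 2) ℤ).trace - 2) *
        (((γ : SL(2, ℤ)) : Matrix (Fin 2) (Fin 2) ℤ).trace + 2) = 0 := by
      linear_combination hγ
    rcases mul_eq_zero.mp this with h | h
    · left; linarith
    · right; linarith
  rcases h2 with h | h
  · obtain ⟨δ, m, hconj⟩ := exists_conj_T_zpow_of_trace_eq_two (γ : SL(2, ℤ)) h
    exact period_eq_zero_of_conj hF hlim γ _ δ m hconj (fun _ => rfl)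
  · have h' : ((-(γ : SL(2, ℤ)) : SL(2, ℤ)) : Matrix (Fin 2) (Fin 2) ℤ).trace = 2 := by
      rw [Matrix.SpecialLinearGroup.coe_neg, Matrix.trace_neg, h]; rfl
    obtain ⟨δ, m, hconj⟩ := exists_conj_T_zpow_of_trace_eq_two (-(γ : SL(2, ℤ))) h'
    exact period_eq_zero_of_conj hF hlim γ _ δ m hconj
      (fun z => ModularGroup.SL_neg_smul _ z)

/-- (A3a) The period homomorphism of an equivariant primitive having limits at all cusps is
parabolic. -/
theorem periodHom_mem_parabolicHoms {N : ℕ} {F : ℍ → ℂ}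
    (hF : IsEquivariantPrimitive (Gamma0 N) F)
    (hlim : ∀ δ : SL(2, ℤ), ∃ L : ℂ, Tendsto (fun w : ℍ => F (δ • w)) atImInfty (𝓝 L)) :
    hF.periodHom ∈ parabolicHoms ℂ (Gamma0 N) ℂ := by
  rw [mem_parabolicHoms_iff]
  intro γ hγ
  rw [IsEquivariantPrimitive.periodHom_apply]
  exact period_eq_zero_of_trace_sq hF hlim γ hγ

/-- (A3b) The period map of a cusp form is a parabolic homomorphism (in both branches of its
definition). -/
theorem periodMap_mem_parabolicHoms (N : ℕ) (f : CuspForm (Gamma0 N) 2) :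
    periodMap N f ∈ parabolicHoms ℂ (Gamma0 N) ℂ := by
  classical
  unfold periodMap
  split_ifs with h
  · exact periodHom_mem_parabolicHoms h.choose_spec.2.2.1 h.choose_spec.2.2.2
  · exact Submodule.zero_mem _

/-- (A3c) The range of the period pairing is contained in the parabolic homomorphisms
(unconditionally: in both branches of the definition of `periodHomPair`). -/
theorem range_periodHomPair_le (N : ℕ) :
    LinearMap.range (periodHomPair N) ≤ parabolicHoms ℂ (Gamma0 N) ℂ := by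
  classical
  rintro φ ⟨⟨f, g⟩, rfl⟩
  unfold periodHomPair
  split_ifs with h
  · have hf : h.choose f ∈ parabolicHoms ℂ (Gamma0 N) ℂ := by
      rw [h.choose_spec f]; exact periodMap_mem_parabolicHoms N f
    have hg : h.choose g ∈ parabolicHoms ℂ (Gamma0 N) ℂ := by
      rw [h.choose_spec g]; exact periodMap_mem_parabolicHoms N g
    simp only [LinearMap.coprod_apply, LinearMap.coe_comp, Function.comp_apply,
      LinearMap.add_apply, LinearMap.sub_apply, LinearMap.id_coe, id_eq]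
    exact Submodule.add_mem _
      (Submodule.add_mem _ hf (charInvolution_mem_parabolicHoms N ℂ ℂ hf))
      (Submodule.sub_mem _ hg (charInvolution_mem_parabolicHoms N ℂ ℂ hg))
  · exact Submodule.zero_mem _

end Fermat.Agent.S21.H86
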