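/-
S21 (Eichler–Shimura), package A4 part 1 (helper86): a maximum modulus principle on modular
curves.  A holomorphic function on the upper half plane whose norm is invariant under a finite
index subgroup of `SL(2, ℤ)` and which is periodic and bounded along every `SL(2, ℤ)`-translate of
the cusp `i∞` is constant.
-/
import Mathlib

set_option autoImplicit false

open UpperHalfPlane Filter Topology Function
open scoped MatrixGroups Manifold Modular Real

noncomputable section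

namespace Fermat.Agent.S21.H86

local notation "𝕢" => Function.Periodic.qParam

/-- Points of the standard fundamental domain have imaginary part at least `1/2`. -/
theorem half_le_im_of_mem_fd {z : ℍ} (hz : z ∈ 𝒟) : 1 / 2 ≤ z.im := by
  have h := ModularGroup.three_le_four_mul_im_sq_of_mem_fd hz
  have hpos := z.im_pos
  nlinarith

/-- A function on `ℍ` invariant under the real translation by `h` gives an `h`-periodic function
on `ℂ` after composing with `ofComplex`. -/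
theorem periodic_comp_ofComplex_of_vadd {g : ℍ → ℂ} {h : ℝ} (hg : ∀ z : ℍ, g (h +ᵥ z) = g z) :
    Periodic (g ∘ ofComplex) h := by
  intro w
  by_cases hw : 0 < w.im
  · have hw' : 0 < (w + h).im := by simpa using hw
    simp only [comp_apply, ofComplex_apply_of_im_pos hw', ofComplex_apply_of_im_pos hw]
    rw [← hg ⟨w, hw⟩]
    congr 1
    ext
    simp [add_comm]
  · have hw1 : w.im ≤ 0 := not_lt.mp hw
    have hw' : (w + h).im ≤ 0 := by simpa using hw1
    simp [ofComplex_apply_of_im_nonpos hw', ofComplex_apply_of_im_nonpos hw1]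

/-- The translate of a holomorphic function by an element of `SL(2, ℤ)` is holomorphic. -/
theorem mdiff_comp_smul {G : ℍ → ℂ} (hG : MDiff G) (δ : SL(2, ℤ)) :
    MDiff (fun w : ℍ => G (δ • w)) := by
  have hdet : 0 < ((δ : GL (Fin 2) ℝ)).det.val := by simp
  exact hG.comp (mdifferentiable_smul hdet)

/-- **Maximum modulus principle on a modular curve.**  Let `Γ` be a finite index subgroup of
`SL(2, ℤ)`, and `G` a holomorphic function on `ℍ` with `Γ`-invariant norm such that every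
translate `w ↦ G (δ • w)`, `δ ∈ SL(2, ℤ)`, is `h`-periodic and bounded at `i∞`.  Then `G` is
constant. -/
theorem exists_eq_const_of_norm_invariant (Γ : Subgroup SL(2, ℤ)) [Γ.FiniteIndex] {h : ℝ}
    (hh : 0 < h) {G : ℍ → ℂ} (hG : MDiff G)
    (hnorm : ∀ γ ∈ Γ, ∀ z : ℍ, ‖G (γ • z)‖ = ‖G z‖)
    (hper : ∀ (δ : SL(2, ℤ)) (z : ℍ), G (δ • (h +ᵥ z)) = G (δ • z))
    (hbdd : ∀ δ : SL(2, ℤ), IsBoundedAtImInfty (fun w : ℍ => G (δ • w))) :
    ∃ C : ℂ, ∀ z : ℍ, G z = C := by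
  classical
  -- the cusp functions of the translates
  set Gh : SL(2, ℤ) → ℂ → ℂ := fun δ => cuspFunction h (fun w : ℍ => G (δ • w)) with hGh
  have hperδ : ∀ δ : SL(2, ℤ), Periodic ((fun w : ℍ => G (δ • w)) ∘ ofComplex) h := fun δ =>
    periodic_comp_ofComplex_of_vadd (hper δ)
  have hval : ∀ (δ : SL(2, ℤ)) (w : ℍ), Gh δ (𝕢 h w) = G (δ • w) := fun δ w =>
    eq_cuspFunction w hh.ne' (hperδ δ)
  have hdiff : ∀ δ : SL(2, ℤ), DifferentiableOn ℂ (Gh δ) (Metric.ball 0 1) := fun δ =>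
    differentiableOn_cuspFunction_ball hh (hperδ δ) (mdiff_comp_smul hG δ) (hbdd δ)
  -- the compact disc containing the image of the fundamental domain
  set r : ℝ := Real.exp (-π / h) with hr
  have hr1 : r < 1 := by
    rw [hr, Real.exp_lt_one_iff]
    exact div_neg_of_neg_of_pos (neg_lt_zero.mpr Real.pi_pos) hh
  have hr0 : 0 ≤ r := (Real.exp_pos _).le
  have hK : IsCompact (Metric.closedBall (0 : ℂ) r) := isCompact_closedBall 0 r
  have hKsub : Metric.closedBall (0 : ℂ) r ⊆ Metric.ball 0 1 := Metric.closedBall_subset_ball hr1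
  have hKne : (Metric.closedBall (0 : ℂ) r).Nonempty := ⟨0, Metric.mem_closedBall_self hr0⟩
  have hfd : ∀ z : ℍ, z ∈ 𝒟 → 𝕢 h z ∈ Metric.closedBall (0 : ℂ) r := by
    intro z hz
    rw [mem_closedBall_zero_iff, Function.Periodic.norm_qParam, hr, Real.exp_le_exp]
    have h1 := half_le_im_of_mem_fd hz
    rw [div_le_div_iff_of_pos_right hh]
    have : (z : ℂ).im = z.im := rfl
    rw [this]
    nlinarith [Real.pi_pos]
  -- maxima on the compact disc, for every translate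
  have hmaxδ : ∀ δ : SL(2, ℤ), ∃ q ∈ Metric.closedBall (0 : ℂ) r,
      ∀ q' ∈ Metric.closedBall (0 : ℂ) r, ‖Gh δ q'‖ ≤ ‖Gh δ q‖ := by
    intro δ
    have hcont : ContinuousOn (fun q => ‖Gh δ q‖) (Metric.closedBall (0 : ℂ) r) :=
      ((hdiff δ).continuousOn.mono hKsub).norm
    obtain ⟨q, hq, hmax⟩ := hK.exists_isMaxOn hKne hcont
    exact ⟨q, hq, fun q' hq' => hmax hq'⟩
  choose qmax hqmem hqmax using hmaxδ
  -- maximum over the finitely many cosets
  obtain ⟨x₀, hx₀⟩ := Finite.exists_max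
    (fun x : SL(2, ℤ) ⧸ Γ => ‖Gh (x.out)⁻¹ (qmax (x.out)⁻¹)‖)
  set δ₀ : SL(2, ℤ) := (x₀.out)⁻¹ with hδ₀
  set q₀ : ℂ := qmax δ₀ with hq₀
  -- global bound
  have hglob : ∀ z : ℍ, ‖G z‖ ≤ ‖Gh δ₀ q₀‖ := by
    intro z
    obtain ⟨g, hg⟩ := ModularGroup.exists_smul_mem_fd z
    obtain ⟨γ, hγ⟩ := QuotientGroup.mk_out_eq_mul Γ g
    set x : SL(2, ℤ) ⧸ Γ := (QuotientGroup.mk g : SL(2, ℤ) ⧸ Γ) with hx
    have hz : z = (γ : SL(2, ℤ)) • ((x.out)⁻¹ • (g • z)) := by
      rw [← mul_smul, ← mul_smul, hγ]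
      simp
    calc ‖G z‖ = ‖G ((γ : SL(2, ℤ)) • ((x.out)⁻¹ • (g • z)))‖ := by rw [← hz]
      _ = ‖G ((x.out)⁻¹ • (g • z))‖ := hnorm _ γ.2 _
      _ = ‖Gh (x.out)⁻¹ (𝕢 h ((g • z : ℍ) : ℂ))‖ := by rw [hval]
      _ ≤ ‖Gh (x.out)⁻¹ (qmax (x.out)⁻¹)‖ := hqmax _ _ (hfd _ hg)
      _ ≤ ‖Gh δ₀ q₀‖ := hx₀ x
  -- bound on the unit disc
  have hball : ∀ q ∈ Metric.ball (0 : ℂ) 1, ‖Gh δ₀ q‖ ≤ ‖Gh δ₀ q₀‖ := by
    have hne : ∀ q ∈ Metric.ball (0 : ℂ) 1, q ≠ 0 → ‖Gh δ₀ q‖ ≤ ‖Gh δ₀ q₀‖ := by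
      intro q hq hq0
      have hq1 : ‖q‖ < 1 := by simpa using hq
      have him : 0 < (Function.Periodic.invQParam h q).im :=
        Function.Periodic.im_invQParam_pos_of_norm_lt_one hh hq1 hq0
      have e : 𝕢 h ((⟨Function.Periodic.invQParam h q, him⟩ : ℍ) : ℂ) = q :=
        Function.Periodic.qParam_right_inv hh.ne' hq0
      rw [← e, hval]
      exact hglob _
    intro q hq
    by_cases hq0 : q = 0
    · subst hq0
      have hcont : ContinuousAt (Gh δ₀) 0 :=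
        ((hdiff δ₀).differentiableAt (Metric.ball_mem_nhds 0 one_pos)).continuousAt
      have ht : Tendsto (fun q => ‖Gh δ₀ q‖) (𝓝[≠] (0 : ℂ)) (𝓝 ‖Gh δ₀ 0‖) :=
        (hcont.norm.tendsto).mono_left nhdsWithin_le_nhds
      refine le_of_tendsto ht ?_
      have h1 : ∀ᶠ q in 𝓝[≠] (0 : ℂ), q ∈ Metric.ball (0 : ℂ) 1 :=
        nhdsWithin_le_nhds (Metric.ball_mem_nhds 0 one_pos)
      filter_upwards [h1, self_mem_nhdsWithin] with q hq hq0
      exact hne q hq hq0
    · exact hne q hq hq0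
  -- maximum modulus principle
  have hq₀mem : q₀ ∈ Metric.ball (0 : ℂ) 1 := hKsub (hqmem δ₀)
  have hconst : Set.EqOn (Gh δ₀) (Function.const ℂ (Gh δ₀ q₀)) (Metric.ball 0 1) :=
    Complex.eqOn_of_isPreconnected_of_isMaxOn_norm (convex_ball 0 1).isPreconnected
      Metric.isOpen_ball (hdiff δ₀) hq₀mem (fun q hq => hball q hq)
  refine ⟨Gh δ₀ q₀, fun z => ?_⟩
  have hz : z = δ₀ • (δ₀⁻¹ • z) := by rw [← mul_smul]; simp
  rw [hz, ← hval]
  refine hconst ?_
  rw [mem_ball_zero_iff]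
  exact Function.Periodic.norm_qParam_lt_one hh (δ₀⁻¹ • z).im_pos

end Fermat.Agent.S21.H86
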