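/-
S21 (Eichler–Shimura), package A4 part 2 (helper86): injectivity of the period pairing, via the
maximum modulus principle of `MaxMod.lean` applied to `exp (a F(z) + b conj (F (-conj z)))`.
Depends only on the frozen Prelude definitions (no use of the existence of primitives).
-/
import Fermat.Agent.S21.H86.Parabolic
import Fermat.Agent.S21.H86.MaxMod

set_option autoImplicit false

open UpperHalfPlane CongruenceSubgroup Filter Topology Function ModularCurve ModularCurve.Period
open scoped MatrixGroups Manifold Modular Real ComplexConjugate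

noncomputable section

namespace Fermat.Agent.S21.H86

/-- Lemma M: a holomorphic function whose real part is `Γ₀(N)`-invariant and which is periodic with
a limit along every cusp has vanishing derivative. -/
theorem deriv_eq_zero_of_re_invariant (N : ℕ) [NeZero N] {u u' : ℍ → ℂ}
    (hd : ∀ τ : ℍ, HasDerivAt (u ∘ ofComplex) (u' τ) ↑τ)
    (hinv : ∀ γ ∈ Gamma0 N, ∀ z : ℍ, (u (γ • z)).re = (u z).re)
    (hper : ∀ (δ : SL(2, ℤ)) (z : ℍ), u (δ • ((N : ℝ) +ᵥ z)) = u (δ • z))
    (hlim : ∀ δ : SL(2, ℤ), ∃ L : ℂ, Tendsto (fun w : ℍ => u (δ • w)) atImInfty (𝓝 L)) :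
    ∀ τ : ℍ, u' τ = 0 := by
  have hN : (0 : ℝ) < N := by exact_mod_cast Nat.pos_of_ne_zero (NeZero.ne N)
  have hG : MDiff (fun z : ℍ => Complex.exp (u z)) := by
    rw [mdifferentiable_iff]
    intro z hz
    have := (hd ⟨z, hz⟩).cexp
    exact this.differentiableAt.differentiableWithinAt
  obtain ⟨C, hC⟩ := exists_eq_const_of_norm_invariant (Gamma0 N) hN hG
    (fun γ hγ z => by simp only [Complex.norm_exp, hinv γ hγ z])
    (fun δ z => by simp only [hper δ z])
    (fun δ => by
      obtain ⟨L, hL⟩ := hlim δ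
      exact ((Complex.continuous_exp.tendsto L).comp hL).isBigO_one ℝ)
  intro τ
  have h1 : HasDerivAt (fun z : ℂ => Complex.exp ((u ∘ ofComplex) z))
      (Complex.exp ((u ∘ ofComplex) ↑τ) * u' τ) ↑τ := (hd τ).cexp
  have h2 : (fun z : ℂ => Complex.exp ((u ∘ ofComplex) z)) = fun _ => C := by
    funext z
    exact hC _
  rw [h2] at h1
  have h3 := h1.unique (hasDerivAt_const (τ : ℂ) C)
  exact (mul_eq_zero.mp h3).resolve_left (Complex.exp_ne_zero _)

/-- The reflection `J : z ↦ -conj z` intertwines `γ` and `jConjSL γ`. -/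
theorem J_smul_smul (γ : SL(2, ℤ)) (z : ℍ) : J • (γ • z) = jConjSL γ • (J • z) := by
  have e : J * (γ : GL (Fin 2) ℝ) = (jConjSL γ : GL (Fin 2) ℝ) * J := by
    apply Units.ext
    ext i j
    fin_cases i <;> fin_cases j <;>
      simp [J, Matrix.mul_apply, Fin.sum_univ_two]
  calc J • (γ • z) = (J * (γ : GL (Fin 2) ℝ)) • z := by rw [mul_smul]; rfl
    _ = ((jConjSL γ : GL (Fin 2) ℝ) * J) • z := by rw [e]
    _ = jConjSL γ • (J • z) := by rw [mul_smul]; rfl

theorem J_smul_vadd (x : ℝ) (z : ℍ) : J • (x +ᵥ z) = (-x) +ᵥ (J • z) := by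
  ext
  simp [coe_J_smul]
  ring

theorem im_J_smul (z : ℍ) : (J • z).im = z.im := by
  have : ((J • z : ℍ) : ℂ).im = (z : ℂ).im := by rw [coe_J_smul]; simp
  exact this

theorem tendsto_J_smul_atImInfty : Tendsto (fun w : ℍ => J • w) atImInfty atImInfty := by
  simp only [atImInfty, tendsto_comap_iff, Function.comp_def, im_J_smul]
  exact tendsto_comap

theorem J_smul_ofComplex {z : ℂ} (hz : 0 < z.im) : J • ofComplex z = ofComplex (-conj z) := by
  have hz' : 0 < (-conj z).im := by simpa using hz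
  ext
  rw [coe_J_smul, ofComplex_apply_of_im_pos hz, ofComplex_apply_of_im_pos hz']


/-- The "conjugate" function `z ↦ conj (F (-conj z))`. -/
def conjF (F : ℍ → ℂ) : ℍ → ℂ := fun z => conj (F (J • z))

theorem hasDerivAt_conjF {F f : ℍ → ℂ}
    (hder : ∀ τ : ℍ, HasDerivAt (F ∘ ofComplex) (f τ) ↑τ) (τ : ℍ) :
    HasDerivAt (conjF F ∘ ofComplex) (-conj (f (J • τ))) ↑τ := by
  have h1 : HasDerivAt (F ∘ ofComplex) (f (J • τ)) (-conj (τ : ℂ)) := by
    have := hder (J • τ)
    rwa [coe_J_smul] at this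
  have h2 : HasDerivAt (fun z : ℂ => -z) (-1) (conj (τ : ℂ)) := (hasDerivAt_id _).neg
  have h3 : HasDerivAt ((F ∘ ofComplex) ∘ fun z : ℂ => -z) (f (J • τ) * -1) (conj (τ : ℂ)) :=
    HasDerivAt.comp (conj (τ : ℂ)) h1 h2
  have h4 := h3.conj_conj
  rw [Complex.conj_conj] at h4
  have h5 : conj (f (J • τ) * -1) = -conj (f (J • τ)) := by simp
  rw [h5] at h4
  refine h4.congr_of_eventuallyEq ?_
  have hopen : {z : ℂ | 0 < z.im} ∈ 𝓝 (τ : ℂ) :=
    (isOpen_lt continuous_const Complex.continuous_im).mem_nhds τ.im_pos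
  filter_upwards [hopen] with z hz
  simp only [conjF, comp_apply, J_smul_ofComplex hz]

theorem conjF_smul_sub {N : ℕ} {F : ℍ → ℂ} (hF : IsEquivariantPrimitive (Gamma0 N) F)
    (γ : Gamma0 N) (z : ℍ) :
    conjF F ((γ : SL(2, ℤ)) • z) - conjF F z = conj (hF.period (jConjGamma0 N γ)) := by
  simp only [conjF]
  rw [J_smul_smul, ← map_sub]
  congr 1
  exact hF.sub_eq_period (jConjGamma0 N γ) (J • z)

theorem tendsto_conjF {F : ℍ → ℂ}
    (hlim : ∀ δ : SL(2, ℤ), ∃ L : ℂ, Tendsto (fun w : ℍ => F (δ • w)) atImInfty (𝓝 L))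
    (δ : SL(2, ℤ)) : ∃ L : ℂ, Tendsto (fun w : ℍ => conjF F (δ • w)) atImInfty (𝓝 L) := by
  obtain ⟨L, hL⟩ := hlim (jConjSL δ)
  refine ⟨conj L, ?_⟩
  have h1 : Tendsto (fun w : ℍ => F (jConjSL δ • (J • w))) atImInfty (𝓝 L) :=
    hL.comp tendsto_J_smul_atImInfty
  have h2 := (Complex.continuous_conj.tendsto L).comp h1
  refine h2.congr (fun w => ?_)
  simp only [conjF, comp_apply, J_smul_smul]

/-- `N`-periodicity of an equivariant primitive along every cusp. -/
theorem primitive_periodic {N : ℕ} {F : ℍ → ℂ} (hF : IsEquivariantPrimitive (Gamma0 N) F)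
    (hlim : ∀ δ : SL(2, ℤ), ∃ L : ℂ, Tendsto (fun w : ℍ => F (δ • w)) atImInfty (𝓝 L))
    (δ : SL(2, ℤ)) (z : ℍ) : F (δ • ((N : ℝ) +ᵥ z)) = F (δ • z) := by
  have hmem : δ * ModularGroup.T ^ (N : ℤ) * δ⁻¹ ∈ Gamma0 N := by
    have h1 : ModularGroup.T ^ (N : ℤ) ∈ Gamma N := by
      simpa using ModularGroup_T_pow_mem_Gamma (N : ℤ) (N : ℤ) dvd_rfl
    have h2 : δ * ModularGroup.T ^ (N : ℤ) * δ⁻¹ ∈ Gamma N := (Gamma_normal N).conj_mem _ h1 δ
    rw [Gamma_mem] at h2
    rw [Gamma0_mem]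
    exact h2.2.2.1
  have hconj : δ * ModularGroup.T ^ (N : ℤ) * δ⁻¹ * δ = δ * ModularGroup.T ^ (N : ℤ) := by
    rw [inv_mul_cancel_right]
  have h0 := period_eq_zero_of_conj hF hlim ⟨_, hmem⟩ _ δ (N : ℤ) hconj (fun _ => rfl)
  have h1 := hF.sub_eq_period ⟨_, hmem⟩ (δ • z)
  rw [h0, sub_eq_zero] at h1
  rw [← h1]
  congr 1
  show δ • ((N : ℝ) +ᵥ z) = (δ * ModularGroup.T ^ (N : ℤ) * δ⁻¹) • (δ • z)
  rw [← mul_smul, hconj, mul_smul, modular_T_zpow_smul]
  simp

theorem conjF_periodic {N : ℕ} {F : ℍ → ℂ} (hF : IsEquivariantPrimitive (Gamma0 N) F)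
    (hlim : ∀ δ : SL(2, ℤ), ∃ L : ℂ, Tendsto (fun w : ℍ => F (δ • w)) atImInfty (𝓝 L))
    (δ : SL(2, ℤ)) (z : ℍ) : conjF F (δ • ((N : ℝ) +ᵥ z)) = conjF F (δ • z) := by
  simp only [conjF]
  rw [J_smul_smul, J_smul_smul, J_smul_vadd]
  congr 1
  have h := primitive_periodic hF hlim (jConjSL δ) ((-(N : ℝ)) +ᵥ (J • z))
  rw [← h]
  congr 2
  rw [vadd_vadd]
  simp


/-- Core of the injectivity argument: a real-part condition on the periods kills a combination of
`f` and its reflection. -/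
theorem eq_zero_of_re_periods (N : ℕ) [NeZero N] {F f : ℍ → ℂ}
    (hder : ∀ τ : ℍ, HasDerivAt (F ∘ ofComplex) (f τ) ↑τ)
    (hF : IsEquivariantPrimitive (Gamma0 N) F)
    (hlim : ∀ δ : SL(2, ℤ), ∃ L : ℂ, Tendsto (fun w : ℍ => F (δ • w)) atImInfty (𝓝 L))
    (a b : ℂ)
    (hab : ∀ γ : Gamma0 N,
      (a * hF.period γ + b * conj (hF.period (jConjGamma0 N γ))).re = 0) (τ : ℍ) :
    a * f τ - b * conj (f (J • τ)) = 0 := by
  have key := deriv_eq_zero_of_re_invariant N
    (u := fun z => a * F z + b * conjF F z)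
    (u' := fun τ => a * f τ + b * -conj (f (J • τ)))
    (fun τ => ((hder τ).const_mul a).add ((hasDerivAt_conjF hder τ).const_mul b))
    (fun γ hγ z => by
      have h1 := hF.sub_eq_period ⟨γ, hγ⟩ z
      have h2 := conjF_smul_sub hF ⟨γ, hγ⟩ z
      have h3 := hab ⟨γ, hγ⟩
      have h4 : a * F (γ • z) + b * conjF F (γ • z) = (a * F z + b * conjF F z) +
          (a * hF.period ⟨γ, hγ⟩ + b * conj (hF.period (jConjGamma0 N ⟨γ, hγ⟩))) := by
        rw [← h1, ← h2]; ring
      show (a * F (γ • z) + b * conjF F (γ • z)).re = (a * F z + b * conjF F z).re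
      rw [h4, Complex.add_re, h3, add_zero])
    (fun δ z => by
      show a * F (δ • ((N : ℝ) +ᵥ z)) + b * conjF F (δ • ((N : ℝ) +ᵥ z))
        = a * F (δ • z) + b * conjF F (δ • z)
      rw [primitive_periodic hF hlim, conjF_periodic hF hlim])
    (fun δ => by
      obtain ⟨L, hL⟩ := hlim δ
      obtain ⟨L', hL'⟩ := tendsto_conjF hlim δ
      exact ⟨a * L + b * L', (hL.const_mul a).add (hL'.const_mul b)⟩)
    τ
  linear_combination key

/-- (A4b, plus case) If the period homomorphism of a primitive of `f` is anti-invariant under the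
involution, then `f = 0`. -/
theorem eq_zero_of_periodHom_add_charInvolution (N : ℕ) [NeZero N] (f : CuspForm (Gamma0 N) 2)
    {F : ℍ → ℂ} (hF : HasEquivariantPrimitive N f F)
    (h : hF.2.2.1.periodHom + charInvolution N ℂ ℂ hF.2.2.1.periodHom = 0) : f = 0 := by
  have hder := hF.1
  have hlim := hF.2.2.2
  have hP : ∀ γ : Gamma0 N, hF.2.2.1.period (jConjGamma0 N γ) = -hF.2.2.1.period γ := by
    intro γ
    have := DFunLike.congr_fun h (Additive.ofMul γ)
    simp only [AddMonoidHom.add_apply, charInvolution_apply, toMul_ofMul,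
      IsEquivariantPrimitive.periodHom_apply, AddMonoidHom.zero_apply] at this
    linear_combination this
  have h1 := eq_zero_of_re_periods N hder hF.2.2.1 hlim 1 1 (fun γ => by
    rw [hP γ]; simp)
  have h2 := eq_zero_of_re_periods N hder hF.2.2.1 hlim Complex.I (-Complex.I) (fun γ => by
    rw [hP γ]; simp)
  ext τ
  have e1 := h1 τ
  have e2 := h2 τ
  have e2' : f τ + conj (f (J • τ)) = 0 := by
    have : Complex.I * (f τ + conj (f (J • τ))) = 0 := by linear_combination e2
    exact (mul_eq_zero.mp this).resolve_left Complex.I_ne_zero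
  have e3 : (2 : ℂ) * f τ = 0 := by linear_combination e1 + e2'
  simpa using e3

/-- (A4b, minus case) If the period homomorphism of a primitive of `f` is invariant under the
involution, then `f = 0`. -/
theorem eq_zero_of_periodHom_sub_charInvolution (N : ℕ) [NeZero N] (f : CuspForm (Gamma0 N) 2)
    {F : ℍ → ℂ} (hF : HasEquivariantPrimitive N f F)
    (h : hF.2.2.1.periodHom - charInvolution N ℂ ℂ hF.2.2.1.periodHom = 0) : f = 0 := by
  have hder := hF.1
  have hlim := hF.2.2.2
  have hP : ∀ γ : Gamma0 N, hF.2.2.1.period (jConjGamma0 N γ) = hF.2.2.1.period γ := by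
    intro γ
    have := DFunLike.congr_fun h (Additive.ofMul γ)
    simp only [AddMonoidHom.sub_apply, charInvolution_apply, toMul_ofMul,
      IsEquivariantPrimitive.periodHom_apply, AddMonoidHom.zero_apply] at this
    linear_combination -this
  have h1 := eq_zero_of_re_periods N hder hF.2.2.1 hlim 1 (-1) (fun γ => by
    rw [hP γ]; simp)
  have h2 := eq_zero_of_re_periods N hder hF.2.2.1 hlim Complex.I Complex.I (fun γ => by
    rw [hP γ]; simp)
  ext τ
  have e1 := h1 τ
  have e2 := h2 τ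
  have e2' : f τ - conj (f (J • τ)) = 0 := by
    have : Complex.I * (f τ - conj (f (J • τ))) = 0 := by linear_combination e2
    exact (mul_eq_zero.mp this).resolve_left Complex.I_ne_zero
  have e3 : (2 : ℂ) * f τ = 0 := by linear_combination e1 + e2'
  simpa using e3

/-- (A4c) Injectivity of the period pairing, given the existence of equivariant primitives and
the linearity of the period map. -/
theorem periodHomPair_injective (N : ℕ) [NeZero N] (hlin : ExistsPeriodMapLinear N)
    (hex : ∀ f : CuspForm (Gamma0 N) 2, ∃ F : ℍ → ℂ, HasEquivariantPrimitive N f F) :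
    Function.Injective (periodHomPair N) := by
  obtain ⟨pml, hpml, hdef⟩ := periodHomPair_def N hlin
  rw [hdef, injective_iff_map_eq_zero]
  rintro ⟨f, g⟩ hfg
  simp only [LinearMap.coprod_apply, LinearMap.coe_comp, comp_apply, LinearMap.add_apply,
    LinearMap.sub_apply, LinearMap.id_coe, id_eq] at hfg
  have hι : ∀ ψ, charInvolution N ℂ ℂ (charInvolution N ℂ ℂ ψ) = ψ :=
    charInvolution_charInvolution N ℂ ℂ
  have h2 := congrArg (charInvolution N ℂ ℂ) hfg
  simp only [map_add, map_sub, hι, map_zero] at h2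
  -- the two components vanish separately
  have hA : pml f + charInvolution N ℂ ℂ (pml f) = 0 := by
    refine AddMonoidHom.ext fun γ => ?_
    have e1 := DFunLike.congr_fun hfg γ
    have e2 := DFunLike.congr_fun h2 γ
    simp only [AddMonoidHom.add_apply, AddMonoidHom.sub_apply, AddMonoidHom.zero_apply] at e1 e2 ⊢
    linear_combination (1 / 2 : ℂ) * e1 + (1 / 2 : ℂ) * e2
  have hB : pml g - charInvolution N ℂ ℂ (pml g) = 0 := by
    refine AddMonoidHom.ext fun γ => ?_
    have e1 := DFunLike.congr_fun hfg γ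
    have e2 := DFunLike.congr_fun h2 γ
    simp only [AddMonoidHom.add_apply, AddMonoidHom.sub_apply, AddMonoidHom.zero_apply] at e1 e2 ⊢
    linear_combination (1 / 2 : ℂ) * e1 - (1 / 2 : ℂ) * e2
  obtain ⟨F₁, hF₁, hper₁⟩ := periodMap_def N f (hex f).choose_spec
  obtain ⟨F₂, hF₂, hper₂⟩ := periodMap_def N g (hex g).choose_spec
  rw [hpml f, hper₁] at hA
  rw [hpml g, hper₂] at hB
  have hf0 : f = 0 := eq_zero_of_periodHom_add_charInvolution N f hF₁ hA
  have hg0 : g = 0 := eq_zero_of_periodHom_sub_charInvolution N g hF₂ hB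
  rw [hf0, hg0]
  rfl

end Fermat.Agent.S21.H86
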